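/-
Conditional wiring of the capstone statements S09, S03, S01 from the deep statements they
depend on.  Everything here is sorry-free; the deep inputs are hypotheses.
-/
import Fermat.Statements.S01
import Fermat.Statements.S03
import Fermat.Statements.S09
import Fermat.Statements.S45

set_option autoImplicit false

open WeierstrassCurve WeierstrassCurve.Affine WeierstrassCurve.Affine.Point
open CuspForm ModularFormClass UpperHalfPlane
open FreyPackage

namespace Fermat.Agent.Wiring

/-- S09 (Mazur irreducibility) from S10, S11, S12, S13. -/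
theorem s09_of
    (h10 : ∀ P : FreyPackage, (P.p = 5 ∨ P.p = 7 ∨ P.p = 13) →
      ¬ HasGaloisStableCofixedLine (K := AlgebraicClosure ℚ) ℚ P.freyCurve P.p)
    (h11 : ∀ P : FreyPackage, P.p = 11 →
      ¬ HasGaloisStableCofixedLine (K := AlgebraicClosure ℚ) ℚ P.freyCurve P.p)
    (h12 : ∀ P : FreyPackage, 17 ≤ P.p →
      ¬ HasGaloisStableCofixedLine (K := AlgebraicClosure ℚ) ℚ P.freyCurve P.p)
    (h13 : ∀ P : FreyPackage,
      ¬ GaloisRepIsIrreducible (K := AlgebraicClosure ℚ) ℚ P.freyCurve P.p →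
      HasGaloisStableCofixedLine (K := AlgebraicClosure ℚ) ℚ P.freyCurve P.p)
    (P : FreyPackage) :
    GaloisRepIsIrreducible (K := AlgebraicClosure ℚ) ℚ P.freyCurve P.p := by
  by_contra hred
  have hL := h13 P hred
  have hp5 := P.hp5
  have hpp := P.pp
  by_cases h17 : 17 ≤ P.p
  · exact h12 P h17 hL
  · have hlt : P.p < 17 := not_le.mp h17
    have hcases : P.p = 5 ∨ P.p = 7 ∨ P.p = 11 ∨ P.p = 13 := by
      generalize P.p = q at hp5 hpp hlt
      interval_cases q <;> first | omega | (exfalso; revert hpp; decide)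
    rcases hcases with h | h | h | h
    · exact h10 P (Or.inl h) hL
    · exact h10 P (Or.inr (Or.inl h)) hL
    · exact h11 P h hL
    · exact h10 P (Or.inr (Or.inr h)) hL

/-- S03 (no Frey package) from S04, S09, S45, S07. -/
theorem s03_of
    (h04 : ∀ P : FreyPackage, P.freyCurve.IsModular)
    (h09 : ∀ P : FreyPackage,
      GaloisRepIsIrreducible (K := AlgebraicClosure ℚ) ℚ P.freyCurve P.p)
    (h45 : ∀ P : FreyPackage, P.freyCurve.IsModular →
      GaloisRepIsIrreducible (K := AlgebraicClosure ℚ) ℚ P.freyCurve P.p →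
      ∃ f : CuspForm (CongruenceSubgroup.Gamma0 2) 2, f ≠ 0)
    (h07 : ∀ f : CuspForm (CongruenceSubgroup.Gamma0 2) 2, f = 0)
    (P : FreyPackage) : False := by
  obtain ⟨f, hf⟩ := h45 P (h04 P) (h09 P)
  exact hf (h07 f)

/-- S01 (Fermat's Last Theorem) from S02 and S03. -/
theorem s01_of
    (h02 : ∀ (a b c : ℤ), a ≠ 0 → b ≠ 0 → c ≠ 0 → ∀ p : ℕ, p.Prime → 5 ≤ p →
      a ^ p + b ^ p = c ^ p → Nonempty FreyPackage)
    (h03 : FreyPackage → False)
    (n : ℕ) (hn : 3 ≤ n) (a b c : ℕ) (ha : 0 < a) (hb : 0 < b) (hc : 0 < c) :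
    a ^ n + b ^ n ≠ c ^ n := by
  have hFLT : FermatLastTheorem := by
    refine FermatLastTheorem.of_odd_primes fun p hp hodd => ?_
    by_cases h3 : p = 3
    · subst h3; exact fermatLastTheoremThree
    · have h5 : 5 ≤ p := by
        have h2 := hp.two_le
        rcases hodd with ⟨k, hk⟩
        by_contra hlt
        have hp4 : p ≠ 4 := by omega
        omega
      intro x y z hx hy hz hxyz
      have hZ : ((x : ℤ)) ^ p + (y : ℤ) ^ p = (z : ℤ) ^ p := by exact_mod_cast hxyz
      obtain ⟨P⟩ := h02 x y z (by exact_mod_cast hx) (by exact_mod_cast hy)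
        (by exact_mod_cast hz) p hp h5 hZ
      exact h03 P
  exact hFLT n hn a b c ha.ne' hb.ne' hc.ne'

end Fermat.Agent.Wiring
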